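import Fermat.Agent.S36.Geo.HPlacesOne
import Fermat.Agent.DR.Abs.Ev

/-!
# S36/Geo/HB/Boundary : the boundary points of the curve `a b (b - a)^(q-1) = c`

The boundary points are the poles of `y = a^q + c/a = b^q + c/b`.  There are three types:
* `(∞,0)`  : `ord a < ord b`  (`ord a = -1`, `ord b = q`),   exactly one point;
* `(0,∞)`  : `ord b < ord a`  (`ord b = -1`, `ord a = q`),   exactly one point;
* `(∞,∞)`  : `ord a = ord b < 0`,   two points if `q ≠ 2`, one point if `q = 2`.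
The functions `a^q / y`, `b^q / y` take the values `(1,0)`, `(0,1)`, `(1,1)` there.
-/

set_option autoImplicit false

namespace Fermat.Agent.S36.Geo

open AlgebraicCurve Fermat.Agent.Lib.RR IntermediateField Polynomial Fermat.Agent.DR.Abs

variable {k Fb : Type*} [Field k] [Field Fb] [Algebra k Fb] [IsAlgClosed k] [IsFF k Fb]
variable {q : ℕ} [Fact q.Prime] [CharP k q] {c : k} {a b : Fb}

namespace IsHCurve

/-- `ord a = 0 ↔ ord b = 0`.  (`ord_of_lt`, `ord_of_gt`: if `ord a ≠ ord b` both are `≠ 0`.) -/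
theorem ord_a_eq_zero_iff (h : IsHCurve k q c a b) (hgen : k⟮a, b⟯ = ⊤) (w : Place k Fb) :
    w.ord a = 0 ↔ w.ord b = 0 := by
  have hq0 : (0 : ℤ) < q := by exact_mod_cast (Fact.out : q.Prime).pos
  rcases lt_trichotomy (w.ord a) (w.ord b) with h1 | h1 | h1
  · obtain ⟨e1, e2⟩ := h.ord_of_lt hgen w h1
    rw [e1, e2]
    constructor <;> intro h0 <;> omega
  · rw [h1]
  · obtain ⟨e1, e2⟩ := h.ord_of_gt hgen w h1
    rw [e1, e2]
    constructor <;> intro h0 <;> omega

/-- The poles of `y` are the points where `a` is not a unit.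
(`ord_y_nonneg`; `ord_y_of_lt`; `ord_of_eq`, `ord_y_of_eq_neg`.) -/
theorem ord_y_neg_iff (h : IsHCurve k q c a b) (hgen : k⟮a, b⟯ = ⊤) (w : Place k Fb) :
    w.ord h.y < 0 ↔ w.ord a ≠ 0 := by
  have hq0 : (0 : ℤ) < q := by exact_mod_cast (Fact.out : q.Prime).pos
  constructor
  · intro hy h0
    have := h.ord_y_nonneg w h0
    omega
  · intro h0
    by_cases hab : w.ord a = w.ord b
    · rcases h.ord_of_eq w hab with ⟨h1, -⟩ | ⟨h1, -⟩
      · exact absurd h1 h0
      · rw [h.ord_y_of_eq_neg w hab h1]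
        exact mul_neg_of_pos_of_neg hq0 h1
    · rw [h.ord_y_of_lt hgen w hab]
      omega

/-- The three types of boundary points. -/
theorem boundary_cases (h : IsHCurve k q c a b) (hgen : k⟮a, b⟯ = ⊤) (w : Place k Fb)
    (hw : w.ord h.y < 0) :
    w.ord a < w.ord b ∨ w.ord b < w.ord a ∨ (w.ord a = w.ord b ∧ w.ord a < 0) := by
  have h0 := (h.ord_y_neg_iff hgen w).1 hw
  rcases lt_trichotomy (w.ord a) (w.ord b) with h1 | h1 | h1
  · exact Or.inl h1
  · rcases h.ord_of_eq w h1 with ⟨h2, -⟩ | ⟨h2, -⟩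
    · exact absurd h2 h0
    · exact Or.inr (Or.inr ⟨h1, h2⟩)
  · exact Or.inr (Or.inl h1)

theorem Boundary_y_ne (h : IsHCurve k q c a b) (hgen : k⟮a, b⟯ = ⊤) (w : Place k Fb)
    (hw : w.ord a ≠ 0) : h.y ≠ 0 := by
  intro h0
  have := (h.ord_y_neg_iff hgen w).2 hw
  rw [h0, w.ord_zero] at this
  exact lt_irrefl _ this

/-- `a^q / y = 1 - (c/a)/y`, and `ord ((c/a)/y) = - ord a - ord y > 0` when `ord a < 0`
(`ord y = -q`, `ord a = -1`, or `ord y = q ord a`). -/
theorem ev_a_of_neg (h : IsHCurve k q c a b) (hgen : k⟮a, b⟯ = ⊤) (w : Place k Fb)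
    (hw : w.ord a < 0) : 0 ≤ w.ord (a ^ q / h.y) ∧ ev w (a ^ q / h.y) = 1 := by
  have hq0 : (0 : ℤ) < q := by exact_mod_cast (Fact.out : q.Prime).pos
  have hy0 : h.y ≠ 0 := h.Boundary_y_ne hgen w hw.ne
  have hc0 : algebraMap k Fb c ≠ 0 := (_root_.map_ne_zero _).2 h.c_ne
  have hB : algebraMap k Fb c / a ≠ 0 := div_ne_zero hc0 h.a_ne
  have hz : w.ord (algebraMap k Fb c / a / h.y) = - w.ord a - w.ord h.y := by
    rw [Fermat.Agent.GAL.RED.ord_div w hB hy0, h.HPlaces_ord_c_div]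
  have hpos : 0 < w.ord (algebraMap k Fb c / a / h.y) := by
    rw [hz]
    by_cases hab : w.ord a = w.ord b
    · rw [h.ord_y_of_eq_neg w hab hw]
      nlinarith
    · rw [h.ord_y_of_lt hgen w hab]
      omega
  have hsub : a ^ q / h.y - algebraMap k Fb 1 = -(algebraMap k Fb c / a / h.y) := by
    rw [map_one]
    have hy : h.y = a ^ q + algebraMap k Fb c / a := rfl
    field_simp
    rw [hy]
    have ha := h.a_ne
    field_simp
    ring
  have key : a ^ q / h.y = algebraMap k Fb 1 ∨ 0 < w.ord (a ^ q / h.y - algebraMap k Fb 1) := by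
    right
    rw [hsub, HPlaces_ord_neg]
    exact hpos
  exact ⟨Ev_ord_nonneg_of w key, ev_eq_of w key⟩

/-- `ord a > 0` forces `ord b < ord a`, `ord a = q`, `ord y = -q`: `ord (a^q/y) = q² + q > 0`. -/
theorem ev_a_of_pos (h : IsHCurve k q c a b) (hgen : k⟮a, b⟯ = ⊤) (w : Place k Fb)
    (hw : 0 < w.ord a) : 0 ≤ w.ord (a ^ q / h.y) ∧ ev w (a ^ q / h.y) = 0 := by
  have hq0 : (0 : ℤ) < q := by exact_mod_cast (Fact.out : q.Prime).pos
  have hy0 : h.y ≠ 0 := h.Boundary_y_ne hgen w hw.ne'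
  have hab : w.ord a ≠ w.ord b := by
    intro hab
    rcases h.ord_of_eq w hab with ⟨h1, -⟩ | ⟨h1, -⟩ <;> omega
  have hpos : 0 < w.ord (a ^ q / h.y) := by
    rw [Fermat.Agent.GAL.RED.ord_div w (pow_ne_zero _ h.a_ne) hy0, HPlaces_ord_pow,
      h.ord_y_of_lt hgen w hab]
    have := mul_pos hq0 hw
    omega
  have key : a ^ q / h.y = algebraMap k Fb 0 ∨ 0 < w.ord (a ^ q / h.y - algebraMap k Fb 0) := by
    right
    rw [map_zero, sub_zero]
    exact hpos
  exact ⟨hpos.le, ev_eq_of w key⟩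

/-- (`h.symm`, `y_symm`.) -/
theorem ev_b_of_neg (h : IsHCurve k q c a b) (hgen : k⟮a, b⟯ = ⊤) (w : Place k Fb)
    (hw : w.ord b < 0) : 0 ≤ w.ord (b ^ q / h.y) ∧ ev w (b ^ q / h.y) = 1 := by
  have := h.symm.ev_a_of_neg (HPlaces_hgen_symm hgen) w hw
  rwa [h.y_symm] at this

theorem ev_b_of_pos (h : IsHCurve k q c a b) (hgen : k⟮a, b⟯ = ⊤) (w : Place k Fb)
    (hw : 0 < w.ord b) : 0 ≤ w.ord (b ^ q / h.y) ∧ ev w (b ^ q / h.y) = 0 := by
  have := h.symm.ev_a_of_pos (HPlaces_hgen_symm hgen) w hw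
  rwa [h.y_symm] at this

/-- the number of points of type `(∞,∞)`. -/
def g2 (q : ℕ) : ℕ := if q = 2 then 1 else 2

/-- (`card_eq_neg`, `card_eq_neg_two`.) -/
theorem card_mid (h : IsHCurve k q c a b) (hgen : k⟮a, b⟯ = ⊤) :
    Nat.card {w : Place k Fb // w.ord a = w.ord b ∧ w.ord a < 0} = g2 q := by
  unfold g2
  split_ifs with hq
  · exact h.card_eq_neg_two hgen hq
  · exact h.card_eq_neg hgen hq

/-- the order of `a` at a point of type `(∞,∞)`: `g2 q * ord a = -(q - 1)`.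
(`ord_of_eq_neg`, `ord_of_eq_neg_two`.) -/
theorem ord_a_mid (h : IsHCurve k q c a b) (hgen : k⟮a, b⟯ = ⊤) (w : Place k Fb)
    (hw : w.ord a = w.ord b) (hneg : w.ord a < 0) : (g2 q : ℤ) * w.ord a = -((q : ℤ) - 1) := by
  unfold g2
  split_ifs with hq
  · rw [(h.ord_of_eq_neg_two hgen hq w hw hneg).1, hq]
    norm_num
  · exact_mod_cast (h.ord_of_eq_neg hgen hq w hw hneg).1

/-- **The number of boundary points.**
The set is the disjoint union of `{w | ord a < ord b}` (one point, `existsUnique_lt`), `{w | ord b < ord a}` (one point,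
`existsUnique_gt`) and the points of type `(∞,∞)` (`card_mid`); `boundary_cases`, `ord_y_neg_iff`. -/
theorem card_boundary (h : IsHCurve k q c a b) (hgen : k⟮a, b⟯ = ⊤) :
    Nat.card {w : Place k Fb // w.ord h.y < 0} = 2 + g2 q := by
  classical
  obtain ⟨w1, hw1, hu1⟩ := h.existsUnique_lt hgen
  obtain ⟨w2, hw2, hu2⟩ := h.existsUnique_gt hgen
  set Smid : Set (Place k Fb) := {w | w.ord a = w.ord b ∧ w.ord a < 0} with hSmid
  have hcard : Smid.ncard = g2 q := by
    rw [← h.card_mid hgen]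
    exact (_root_.Nat.card_coe_set_eq Smid).symm
  have hg2 : g2 q ≠ 0 := by
    unfold g2
    split_ifs <;> norm_num
  have hfin : Smid.Finite := Set.finite_of_ncard_ne_zero (by rw [hcard]; exact hg2)
  have hset : {w : Place k Fb | w.ord h.y < 0} = insert w1 (insert w2 Smid) := by
    ext w
    simp only [Set.mem_ofPred_eq, Set.mem_insert_iff]
    constructor
    · intro hw
      rcases h.boundary_cases hgen w hw with h1 | h1 | h1
      · exact Or.inl (hu1 w h1)
      · exact Or.inr (Or.inl (hu2 w h1))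
      · exact Or.inr (Or.inr h1)
    · rintro (rfl | rfl | h1)
      · rw [h.ord_y_neg_iff hgen, (h.ord_of_lt hgen w hw1).1]
        norm_num
      · rw [h.ord_y_neg_iff hgen, (h.ord_of_gt hgen w hw2).2]
        exact_mod_cast (Fact.out : q.Prime).pos.ne'
      · rw [h.ord_y_neg_iff hgen]
        exact h1.2.ne
  have hn2 : w2 ∉ Smid := fun hm => by
    have : w2.ord a = w2.ord b := hm.1
    omega
  have hn1 : w1 ∉ insert w2 Smid := by
    rw [Set.mem_insert_iff]
    rintro (rfl | hm)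
    · omega
    · have : w1.ord a = w1.ord b := hm.1
      omega
  have h1 : Nat.card {w : Place k Fb // w.ord h.y < 0} = {w : Place k Fb | w.ord h.y < 0}.ncard :=
    _root_.Nat.card_coe_set_eq _
  rw [h1, hset, Set.ncard_insert_of_notMem hn1 (hfin.insert w2),
    Set.ncard_insert_of_notMem hn2 hfin, hcard]
  ring

theorem finite_boundary (h : IsHCurve k q c a b) (hgen : k⟮a, b⟯ = ⊤) :
    Finite {w : Place k Fb // w.ord h.y < 0} := by
  apply Nat.finite_of_card_ne_zero
  rw [h.card_boundary hgen]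
  omega

end IsHCurve

end Fermat.Agent.S36.Geo
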