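import Fermat.Agent.S36.Geo.HB.Boundary
import Fermat.Agent.S36.Geo.HAut
import Fermat.Agent.S36.Norm.Tools.Symm

/-!
# S36/Geo/HB/AutPlaces : the action of the automorphisms `(a,b) ↦ (z a, z b)` on the boundary points

`σ : Fb ≃ₐ[k] Fb`, `σ a = z a`, `σ b = z b` (`z ≠ 0`; then `z^(q+1) = 1`).
* `σ` fixes the points `(∞,0)`, `(0,∞)`;
* `σ` permutes the points `(∞,∞)`; for `q ≠ 2` it exchanges them if `z^((q+1)/2) = -1`.
(`placeMap σ w` is the image of the place `w`: `(placeMap σ w).ord (σ u) = w.ord u`.)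
-/

set_option autoImplicit false

namespace Fermat.Agent.S36.Geo

open AlgebraicCurve Fermat.Agent.Lib.RR IntermediateField Polynomial Fermat.Agent.DR.Abs
  Fermat.Agent.S36.Norm

variable {k Fb : Type*} [Field k] [Field Fb] [Algebra k Fb] [IsAlgClosed k] [IsFF k Fb]
variable {q : ℕ} [Fact q.Prime] [CharP k q] {c : k} {a b : Fb}

namespace IsHCurve

/-- `ord_{σ w} a = ord_w a`  (`a = z⁻¹ • σ a`, `placeMap_ord`, the order of a nonzero constant is `0`). -/
theorem ord_placeMap_a (σ : Fb ≃ₐ[k] Fb) {z : k} (hz : z ≠ 0) (hσa : σ a = z • a) (w : Place k Fb) :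
    (placeMap σ w).ord a = w.ord a := by
  have h1 := placeMap_ord σ w a
  rw [hσa, Algebra.smul_def] at h1
  rcases eq_or_ne a 0 with rfl | ha
  · rw [Place.ord_zero, Place.ord_zero]
  · rw [(placeMap σ w).ord_mul ((_root_.map_ne_zero _).2 hz) ha, HPlaces_ord_const, zero_add] at h1
    exact h1

/-- `σ` fixes the point `(∞,0)`.  (`existsUnique_lt`, `ord_placeMap_a` for `a` and `b`.) -/
theorem placeMap_infZero (h : IsHCurve k q c a b) (hgen : k⟮a, b⟯ = ⊤) (σ : Fb ≃ₐ[k] Fb) {z : k}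
    (hz : z ≠ 0) (hσa : σ a = z • a) (hσb : σ b = z • b) (w : Place k Fb)
    (hw : w.ord a < w.ord b) : placeMap σ w = w := by
  obtain ⟨w0, -, hu⟩ := h.existsUnique_lt hgen
  have h' : (placeMap σ w).ord a < (placeMap σ w).ord b := by
    rw [ord_placeMap_a σ hz hσa w, ord_placeMap_a σ hz hσb w]
    exact hw
  exact (hu _ h').trans (hu w hw).symm

/-- `σ` fixes the point `(0,∞)`. -/
theorem placeMap_zeroInf (h : IsHCurve k q c a b) (hgen : k⟮a, b⟯ = ⊤) (σ : Fb ≃ₐ[k] Fb) {z : k}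
    (hz : z ≠ 0) (hσa : σ a = z • a) (hσb : σ b = z • b) (w : Place k Fb)
    (hw : w.ord b < w.ord a) : placeMap σ w = w := by
  obtain ⟨w0, -, hu⟩ := h.existsUnique_gt hgen
  have h' : (placeMap σ w).ord b < (placeMap σ w).ord a := by
    rw [ord_placeMap_a σ hz hσa w, ord_placeMap_a σ hz hσb w]
    exact hw
  exact (hu _ h').trans (hu w hw).symm

/-- `σ` permutes the points `(∞,∞)`. -/
theorem placeMap_mid (σ : Fb ≃ₐ[k] Fb) {z : k}
    (hz : z ≠ 0) (hσa : σ a = z • a) (hσb : σ b = z • b) (w : Place k Fb)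
    (hw : w.ord a = w.ord b) (hneg : w.ord a < 0) :
    (placeMap σ w).ord a = (placeMap σ w).ord b ∧ (placeMap σ w).ord a < 0 := by
  rw [ord_placeMap_a σ hz hσa w, ord_placeMap_a σ hz hσb w]
  exact ⟨hw, hneg⟩

/-- `q = 2 r + 1`, `ξ = b^(r+1) (1 - t)^r` (`HPlacesOne_xi`), `σ ξ = z^(r+1) ξ = - ξ`, `σ t = t`.  At a point `w` of type `(∞,∞)`, `ξ` takes a value
`s` with `s² = c` (`HPlacesOne_ord_xi_sub_add`, …: one of `ord_w (ξ - s)`, `ord_w (ξ + s)` is positive); at `σ w` it takes the value `- s ≠ s`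
(`placeMap_ord` applied to `u = ξ - s`: `σ u = -(ξ + s)`; `HPlacesOne_ord_xi_other`). -/
theorem placeMap_mid_ne (h : IsHCurve k q c a b) (hgen : k⟮a, b⟯ = ⊤) (hq : q ≠ 2)
    (σ : Fb ≃ₐ[k] Fb) {z : k} (hz2 : z ^ ((q + 1) / 2) = -1) (hσa : σ a = z • a)
    (hσb : σ b = z • b) (w : Place k Fb) (hw : w.ord a = w.ord b) (hneg : w.ord a < 0) :
    placeMap σ w ≠ w := by
  obtain ⟨r, hr⟩ := HPlacesOne_exists_r (q := q) hq
  obtain ⟨s, hs⟩ := IsAlgClosed.exists_pow_nat_eq c (n := 2) (by norm_num)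
  have hs' : (-s) ^ 2 = c := by rw [neg_sq, hs]
  have hqr : (q + 1) / 2 = r + 1 := by omega
  rw [hqr] at hz2
  have hz : z ≠ 0 := by
    rintro rfl
    rw [zero_pow (by omega)] at hz2
    exact (neg_ne_zero.mpr one_ne_zero) hz2.symm
  have hzF : algebraMap k Fb z ≠ 0 := (_root_.map_ne_zero _).2 hz
  have hσt : σ h.t = h.t := by
    unfold IsHCurve.t
    rw [map_div₀, hσa, hσb, Algebra.smul_def, Algebra.smul_def, mul_div_mul_left _ _ hzF]
  have hσξ : σ (h.HPlacesOne_xi r) = - h.HPlacesOne_xi r := by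
    unfold HPlacesOne_xi
    rw [map_mul, map_pow, map_pow, map_sub, map_one, hσt, hσb, Algebra.smul_def, mul_pow, ← map_pow,
      hz2, map_neg, map_one]
    ring
  have key : ∀ s' : k, s' ^ 2 = c → 0 < w.ord (h.HPlacesOne_xi r - algebraMap k Fb s') →
      placeMap σ w ≠ w := by
    intro s' hs' hpos heq
    have h1 := placeMap_ord σ w (h.HPlacesOne_xi r - algebraMap k Fb s')
    rw [heq, map_sub, hσξ, AlgEquiv.commutes] at h1
    have h2 : - h.HPlacesOne_xi r - algebraMap k Fb s'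
        = -(h.HPlacesOne_xi r - algebraMap k Fb (-s')) := by
      rw [map_neg]; ring
    rw [h2, HPlaces_ord_neg, h.HPlacesOne_ord_xi_other hq r (h.HPlacesOne_sqrt_ne hs') w hpos] at h1
    omega
  have hsum := h.HPlacesOne_ord_xi_sub_add hr hs w hw
  have h1t := h.HPlacesOne_ord_one_sub_t w
  have hd : 0 < w.ord (b - a) := by
    rcases h.ord_of_eq w hw with ⟨h0, -⟩ | ⟨-, h0⟩
    · omega
    · exact h0
  have hn1 := h.HPlacesOne_ord_xi_sub_nonneg hr s hw.le
  have hn2 := h.HPlacesOne_ord_xi_sub_nonneg hr (-s) hw.le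
  rcases lt_or_ge 0 (w.ord (h.HPlacesOne_xi r - algebraMap k Fb s)) with hp | hp
  · exact key s hs hp
  · exact key (-s) hs' (by omega)

/-- the swap: if `w ≠ w'` are the two points of type `(∞,∞)` then `σ w = w'`.  (`card_eq_neg`, `placeMap_mid`, `placeMap_mid_ne`.) -/
theorem placeMap_mid_swap (h : IsHCurve k q c a b) (hgen : k⟮a, b⟯ = ⊤) (hq : q ≠ 2)
    (σ : Fb ≃ₐ[k] Fb) {z : k} (hz2 : z ^ ((q + 1) / 2) = -1) (hσa : σ a = z • a)
    (hσb : σ b = z • b) (w w' : Place k Fb) (hw : w.ord a = w.ord b) (hneg : w.ord a < 0)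
    (hw' : w'.ord a = w'.ord b) (hneg' : w'.ord a < 0) (hne : w ≠ w') : placeMap σ w = w' := by
  have hz : z ≠ 0 := by
    rintro rfl
    have hq2 := (Fact.out : q.Prime).two_le
    rw [zero_pow (by omega)] at hz2
    exact (neg_ne_zero.mpr one_ne_zero) hz2.symm
  have hcard := h.card_eq_neg hgen hq
  rw [Nat.card_eq_two_iff' (⟨w, hw, hneg⟩ : {w : Place k Fb // w.ord a = w.ord b ∧ w.ord a < 0})]
    at hcard
  obtain ⟨y, -, hu⟩ := hcard
  have h1 := hu ⟨w', hw', hneg'⟩ (fun h0 => hne (congrArg Subtype.val h0).symm)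
  have h2 := hu ⟨placeMap σ w, placeMap_mid σ hz hσa hσb w hw hneg⟩
    (fun h0 => h.placeMap_mid_ne hgen hq σ hz2 hσa hσb w hw hneg (congrArg Subtype.val h0))
  exact congrArg Subtype.val (h2.trans h1.symm)

/-- `q = 2`: there is only one point of type `(∞,∞)`.  (`card_eq_neg_two`.) -/
theorem placeMap_mid_two (h : IsHCurve k q c a b) (hgen : k⟮a, b⟯ = ⊤) (hq : q = 2)
    (σ : Fb ≃ₐ[k] Fb) {z : k} (hz : z ≠ 0) (hσa : σ a = z • a)
    (hσb : σ b = z • b) (w : Place k Fb) (hw : w.ord a = w.ord b) (hneg : w.ord a < 0) :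
    placeMap σ w = w := by
  have hcard := h.card_eq_neg_two hgen hq
  rw [Nat.card_eq_one_iff_unique] at hcard
  obtain ⟨hsub, -⟩ := hcard
  exact congrArg Subtype.val (hsub.elim
    (⟨placeMap σ w, placeMap_mid σ hz hσa hσb w hw hneg⟩ :
      {w : Place k Fb // w.ord a = w.ord b ∧ w.ord a < 0}) ⟨w, hw, hneg⟩)

end IsHCurve

end Fermat.Agent.S36.Geo
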