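import Fermat.Agent.S36.Geo.HB.Boundary
import Fermat.Agent.S36.Norm.Tools.Branch
import Fermat.Agent.S36.Norm.Tools.Sep

/-!
# S36/Geo/HB/CoverCurve : the covering `H_e → l_e` (the `a`-line), curve level

`L1` a field with `L1 = k(a₁)`, `L1 ⊆ Fb = k(a,b)`, `a₁ ↦ a`.  The extension `Fb / L1` has degree `q`, is separable, and
* the point `(∞,0)` lies over `a₁ = ∞` with ramification index `1`;
* the points `(∞,∞)` lie over `a₁ = ∞` with ramification index `(q-1)/g2`;
* the point `(0,∞)` lies over `a₁ = 0` with ramification index `q`.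
(For the `b`-line apply everything to `h.symm`.)
-/

set_option autoImplicit false

namespace Fermat.Agent.S36.Geo

open AlgebraicCurve Fermat.Agent.Lib.RR IntermediateField Polynomial Fermat.Agent.DR.Abs
  Fermat.Agent.S36.Norm

variable {k Fb : Type*} [Field k] [Field Fb] [Algebra k Fb] [IsAlgClosed k] [IsFF k Fb]
variable {q : ℕ} [Fact q.Prime] [CharP k q] {c : k} {a b : Fb}
variable {L1 : Type*} [Field L1] [Algebra k L1] [Algebra L1 Fb] [IsScalarTower k L1 Fb]
  {a₁ : L1}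

namespace IsHCurve

omit [IsAlgClosed k] [IsFF k Fb] in
/-- `a₁` is transcendental (its image `a` is). -/
theorem trans_a₁ (h : IsHCurve k q c a b) (ha₁ : algebraMap L1 Fb a₁ = a) : Transcendental k a₁ := by
  intro halg
  apply h.trans
  rw [← ha₁]
  exact halg.algebraMap (A := Fb)

omit [IsFF k Fb] in
/-- `L1 = k(a₁)` is a function field.  (`GAL.FF.RationalAux_isFF`.) -/
theorem isFF_L1 (h : IsHCurve k q c a b) (ha₁ : algebraMap L1 Fb a₁ = a) (hgen₁ : k⟮a₁⟯ = ⊤) :
    IsFF k L1 :=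
  Fermat.Agent.GAL.FF.RationalAux_isFF (h.trans_a₁ ha₁) hgen₁

omit [IsAlgClosed k] [IsFF k Fb] in
/-- `Fb = L1(b)`.  (The subfield `L1⟮b⟯` contains `k`, `a`, `b`; `hgen`; cf. `HIndep_eq_top_of`.) -/
theorem adjoin_L1_b (h : IsHCurve k q c a b) (hgen : k⟮a, b⟯ = ⊤) (ha₁ : algebraMap L1 Fb a₁ = a) :
    L1⟮b⟯ = ⊤ := by
  apply HIndep_eq_top_of hgen
  · intro z
    rw [IsScalarTower.algebraMap_apply k L1 Fb]
    exact IntermediateField.algebraMap_mem _ _
  · rw [← ha₁]
    exact IntermediateField.algebraMap_mem _ _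
  · exact mem_adjoin_simple_self _ b

omit [IsAlgClosed k] [IsFF k Fb] in
/-- `b` is a root of `p = a₁ T (T - a₁)^(q-1) - c`, of degree `q`. -/
theorem finiteDimensional_L1 (h : IsHCurve k q c a b) (hgen : k⟮a, b⟯ = ⊤)
    (ha₁ : algebraMap L1 Fb a₁ = a) : FiniteDimensional L1 Fb := by
  have hq : 0 < q := (Fact.out : q.Prime).pos
  have hm : (X * (X - C a₁) ^ (q - 1) : L1[X]).Monic := monic_X.mul ((monic_X_sub_C a₁).pow _)
  have hd : (X * (X - C a₁) ^ (q - 1) : L1[X]).natDegree = q := by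
    rw [monic_X.natDegree_mul ((monic_X_sub_C a₁).pow _), natDegree_X,
      (monic_X_sub_C a₁).natDegree_pow, natDegree_X_sub_C]
    omega
  have hint : IsIntegral L1 b := by
    refine ⟨X * (X - C a₁) ^ (q - 1) - C (algebraMap k L1 c / a₁), ?_, ?_⟩
    · apply hm.sub_of_left
      rw [degree_eq_natDegree hm.ne_zero, hd]
      exact lt_of_le_of_lt degree_C_le (by exact_mod_cast hq)
    · rw [← aeval_def]
      simp only [map_sub, map_mul, map_pow, aeval_X, aeval_C, map_div₀, ha₁,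
        ← IsScalarTower.algebraMap_apply]
      rw [← h.rel]
      field_simp [h.a_ne]
      ring
  have hfd : FiniteDimensional L1 L1⟮b⟯ := IntermediateField.adjoin.finiteDimensional hint
  rw [h.adjoin_L1_b hgen ha₁] at hfd
  exact Module.Finite.equiv (IntermediateField.topEquiv (F := L1) (E := Fb)).toLinearEquiv

omit [IsFF k Fb] in
/-- The range of `algebraMap L1 Fb` is `k⟮a⟯` (as `k⟮a₁⟯ = ⊤`), so the degree is `finrank_a`.
(E.g. the `k`-algebra isomorphism `L1 ≃ k⟮a⟯` is compatible with the algebra structures: `Algebra.finrank_eq_of_equiv_equiv`;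
or: `≤ q` by the polynomial `p`, `≥ q` because `1, b, …, b^(q-1)` are linearly independent over `k⟮a⟯` (`HIndepB`).) -/
theorem finrank_L1 (h : IsHCurve k q c a b) (hgen : k⟮a, b⟯ = ⊤) (ha₁ : algebraMap L1 Fb a₁ = a)
    (hgen₁ : k⟮a₁⟯ = ⊤) : Module.finrank L1 Fb = q := by
  have hK' : ∀ x : L1, algebraMap L1 Fb x ∈ k⟮a⟯ := by
    intro x
    have hx : x ∈ k⟮a₁⟯ := by rw [hgen₁]; trivial
    have h1 : (IsScalarTower.toAlgHom k L1 Fb) x ∈ (k⟮a₁⟯).map (IsScalarTower.toAlgHom k L1 Fb) :=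
      ⟨x, hx, rfl⟩
    rw [IntermediateField.adjoin_map, Set.image_singleton] at h1
    have h2 : (IsScalarTower.toAlgHom k L1 Fb) a₁ = a := ha₁
    rw [h2] at h1
    exact h1
  have h1 := h.HIndep_finrank_b L1 hK' a₁ ha₁ (algebraMap k L1 c / a₁)
    (by rw [map_div₀, ha₁, ← IsScalarTower.algebraMap_apply])
  rw [h.adjoin_L1_b hgen ha₁, IntermediateField.finrank_top'] at h1
  exact h1

omit [IsAlgClosed k] [IsFF k Fb] in
/-- `p = C a₁ * X * (X - C a₁)^(q-1) - C c`, `p' (b) = - a² (b - a)^(q-2) ≠ 0` (characteristic `q`; for `q = 2`: `p' (b) = a²`...: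
`p' = a₁ (X - a₁)^(q-1) + (q-1) a₁ X (X - a₁)^(q-2)`, multiply by `(b - a)`: `p'(b) (b - a) = a (b-a)^(q-1) ((b - a) - b) = - a² (b-a)^(q-1) ≠ 0`).
`isSeparable_of_simple_root`. -/
theorem isSeparable_L1 (h : IsHCurve k q c a b) (hgen : k⟮a, b⟯ = ⊤)
    (ha₁ : algebraMap L1 Fb a₁ = a) : Algebra.IsSeparable L1 Fb := by
  haveI : CharP Fb q := HCurve_charP k q
  obtain ⟨n, hn⟩ : ∃ n, q = n + 2 :=
    ⟨q - 2, by have := (Fact.out : q.Prime).two_le; omega⟩
  have hq1 : q - 1 = n + 1 := by omega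
  have hcast : (n : Fb) + 1 = -1 := by
    have h0 : ((q : ℕ) : Fb) = 0 := CharP.cast_eq_zero Fb q
    rw [hn] at h0
    push_cast at h0
    linear_combination h0
  have hrel := h.rel
  rw [hq1] at hrel
  refine isSeparable_of_simple_root b (h.adjoin_L1_b hgen ha₁)
    (C a₁ * X * (X - C a₁) ^ (n + 1) - C (algebraMap k L1 c)) ?_ ?_
  · simp only [map_sub, map_mul, map_pow, aeval_X, aeval_C, ha₁, ← IsScalarTower.algebraMap_apply]
    rw [hrel, sub_self]
  · intro h0
    have h1 : aeval b (derivative (C a₁ * X * (X - C a₁) ^ (n + 1) - C (algebraMap k L1 c)))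
        = a * (b - a) ^ (n + 1) + a * b * (((n : Fb) + 1) * (b - a) ^ n) := by
      simp only [derivative_sub, derivative_mul, derivative_C, derivative_X, derivative_pow,
        zero_mul, zero_add, mul_one, sub_zero, map_add, map_mul, map_pow, map_sub, aeval_X,
        aeval_C, ha₁, Nat.add_sub_cancel, map_natCast, Nat.cast_add, Nat.cast_one, map_one]
    rw [h1] at h0
    have h2 : a ^ 2 * (b - a) ^ (n + 1) = 0 := by
      have h3 : (a * (b - a) ^ (n + 1) + a * b * (((n : Fb) + 1) * (b - a) ^ n)) * (b - a)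
          = -(a ^ 2 * (b - a) ^ (n + 1)) := by
        rw [hcast]
        ring
      rw [h0, zero_mul] at h3
      exact neg_eq_zero.1 h3.symm
    exact mul_ne_zero (pow_ne_zero _ h.a_ne) (pow_ne_zero _ (sub_ne_zero.2 h.a_ne_b.symm)) h2

variable [IsFF k L1] [FiniteDimensional L1 Fb]

/-- `e_w = - ord_w a` at a pole of `a`.  (As `GAL.FF.ramificationIndex_adjoin_of_neg`: `Place.ord_restrict`,
`GAL.FF.RationalAux_ord_eq_one` applied to `a₁⁻¹`.) -/
theorem ramificationIndex_of_neg (h : IsHCurve k q c a b) (ha₁ : algebraMap L1 Fb a₁ = a)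
    (hgen₁ : k⟮a₁⟯ = ⊤) (w : Place k Fb) (hw : w.ord a < 0) :
    (w.restrict L1).ord a₁ < 0 ∧ (w.ramificationIndex L1 : ℤ) = - w.ord a := by
  have htr : Transcendental k a₁⁻¹ := Fermat.Agent.S24.transcendental_inv (h.trans_a₁ ha₁)
  have htop : k⟮a₁⁻¹⟯ = ⊤ := by rw [Fermat.Agent.S24.adjoin_inv_eq, hgen₁]
  have h1 := w.ord_restrict (F := L1) a₁⁻¹
  rw [map_inv₀, ha₁, w.ord_inv] at h1
  have he : (0 : ℤ) < (w.ramificationIndex L1 : ℤ) := by
    exact_mod_cast w.ramificationIndex_pos (F := L1)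
  have hpos : 0 < (w.restrict L1).ord a₁⁻¹ := by
    have h2 : 0 < (w.ramificationIndex L1 : ℤ) * (w.restrict L1).ord a₁⁻¹ := by
      rw [← h1]; omega
    exact (mul_pos_iff_of_pos_left he).1 h2
  have h3 := Fermat.Agent.GAL.FF.RationalAux_ord_eq_one htr htop _ hpos
  constructor
  · rw [(w.restrict L1).ord_inv] at hpos
    omega
  · rw [h1, h3, mul_one]

/-- `e_w = ord_w a` at a zero of `a`. -/
theorem ramificationIndex_of_pos (h : IsHCurve k q c a b) (ha₁ : algebraMap L1 Fb a₁ = a)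
    (hgen₁ : k⟮a₁⟯ = ⊤) (w : Place k Fb) (hw : 0 < w.ord a) :
    0 < (w.restrict L1).ord a₁ ∧ (w.ramificationIndex L1 : ℤ) = w.ord a := by
  have htr : Transcendental k a₁ := h.trans_a₁ ha₁
  have h1 := w.ord_restrict (F := L1) a₁
  rw [ha₁] at h1
  have he : (0 : ℤ) < (w.ramificationIndex L1 : ℤ) := by
    exact_mod_cast w.ramificationIndex_pos (F := L1)
  have hpos : 0 < (w.restrict L1).ord a₁ := by
    have h2 : 0 < (w.ramificationIndex L1 : ℤ) * (w.restrict L1).ord a₁ := by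
      rw [← h1]; exact hw
    exact (mul_pos_iff_of_pos_left he).1 h2
  have h3 := Fermat.Agent.GAL.FF.RationalAux_ord_eq_one htr hgen₁ _ hpos
  exact ⟨hpos, by rw [h1, h3, mul_one]⟩

/-- all the poles of `a` have the same restriction to `L1`.  (`place_eq_of_pole`.) -/
theorem restrict_eq_of_neg (h : IsHCurve k q c a b) (ha₁ : algebraMap L1 Fb a₁ = a)
    (hgen₁ : k⟮a₁⟯ = ⊤) (w w' : Place k Fb) (hw : w.ord a < 0) (hw' : w'.ord a < 0) :
    w.restrict L1 = w'.restrict L1 :=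
  place_eq_of_pole a₁ hgen₁ _ _ (h.ramificationIndex_of_neg ha₁ hgen₁ w hw).1
    (h.ramificationIndex_of_neg ha₁ hgen₁ w' hw').1

/-- the ramification index at the point `(0,∞)` is `q`. -/
theorem ramificationIndex_zeroInf (h : IsHCurve k q c a b) (hgen : k⟮a, b⟯ = ⊤)
    (ha₁ : algebraMap L1 Fb a₁ = a) (hgen₁ : k⟮a₁⟯ = ⊤) (w : Place k Fb)
    (hw : w.ord b < w.ord a) : w.ramificationIndex L1 = q := by
  have h1 := (h.ord_of_gt hgen w hw).2
  have hq0 : (0 : ℤ) < q := by exact_mod_cast (Fact.out : q.Prime).pos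
  have h2 := (h.ramificationIndex_of_pos ha₁ hgen₁ w (by rw [h1]; exact hq0)).2
  rw [h1] at h2
  exact_mod_cast h2

/-- the ramification index at the point `(∞,0)` is `1`. -/
theorem ramificationIndex_infZero (h : IsHCurve k q c a b) (hgen : k⟮a, b⟯ = ⊤)
    (ha₁ : algebraMap L1 Fb a₁ = a) (hgen₁ : k⟮a₁⟯ = ⊤) (w : Place k Fb)
    (hw : w.ord a < w.ord b) : w.ramificationIndex L1 = 1 := by
  have h1 := (h.ord_of_lt hgen w hw).1
  have h2 := (h.ramificationIndex_of_neg ha₁ hgen₁ w (by rw [h1]; norm_num)).2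
  rw [h1] at h2
  have h3 : (w.ramificationIndex L1 : ℤ) = 1 := by rw [h2]; norm_num
  exact_mod_cast h3

/-- the ramification index at the points `(∞,∞)`: `g2 q * e = q - 1`. -/
theorem ramificationIndex_mid (h : IsHCurve k q c a b) (hgen : k⟮a, b⟯ = ⊤)
    (ha₁ : algebraMap L1 Fb a₁ = a) (hgen₁ : k⟮a₁⟯ = ⊤) (w : Place k Fb)
    (hw : w.ord a = w.ord b) (hneg : w.ord a < 0) : g2 q * w.ramificationIndex L1 = q - 1 := by
  have h1 := h.ord_a_mid hgen w hw hneg
  have h2 := (h.ramificationIndex_of_neg ha₁ hgen₁ w hneg).2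
  have hq1 : 1 ≤ q := (Fact.out : q.Prime).pos
  have h3 : ((g2 q * w.ramificationIndex L1 : ℕ) : ℤ) = ((q - 1 : ℕ) : ℤ) := by
    rw [Nat.cast_mul, h2, Nat.cast_sub hq1, Nat.cast_one]
    linarith
  exact_mod_cast h3

end IsHCurve

end Fermat.Agent.S36.Geo
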